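import Fermat.Agent.GT.Abs.Defs

/-!
# Project GT, module VAL, abstract layer: definitions

`R` a DVR with uniformizer `ϖ`, `F0 ⊆ F` fields over `R` (`F0 = FF L M0`, `F = FF L (q² M0)`),
`𝒪0` the Gauss valuation subring of `F0`, `𝒪 : ι → ValuationSubring F` the finite family of ALL the
valuation subrings of `F` above `𝒪0` (`ϖ` need not be a uniformizer of `𝒪 i`).

Goal of the layer: `VTower` + `VChart` ⟹ `GT.VertFam` + `GT.MultiChart` (file `Tower/Main.lean`).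
-/

set_option autoImplicit false

namespace Fermat.Agent.GT.Val

open Fermat.Agent.GR.E Fermat.Agent.GS Fermat.Agent.GT

variable {R : Type*} [CommRing R] {F0 F : Type*} [Field F0] [Field F] [Algebra R F0] [Algebra R F]
  [Algebra F0 F] {ι : Type*}

/-- `z` is a root of a monic polynomial with coefficients in the subring `S` of `F0`. -/
def IntOver (S : Subring F0) (z : F) : Prop :=
  ∃ p : Polynomial F0, p.Monic ∧ (∀ k, p.coeff k ∈ S) ∧ Polynomial.aeval z p = 0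

/-- The chart-independent hypotheses. -/
structure VTower (ϖ : R) (𝒪0 : ValuationSubring F0) (𝒪 : ι → ValuationSubring F) : Prop where
  gauss0 : GaussRing ϖ 𝒪0
  comap : ∀ i, ∀ x : F0, algebraMap F0 F x ∈ 𝒪 i ↔ x ∈ 𝒪0
  /-- `⋂ 𝒪 i` is integral over `𝒪0` (there is no other valuation subring above `𝒪0`) -/
  integral : ∀ z : F, (∀ i, z ∈ 𝒪 i) → IntOver 𝒪0.toSubring z
  nilp : ∃ e : ℕ, ∀ i, ∀ x ∈ (𝒪 i).nonunits, x ^ e / algebraMap R F ϖ ∈ 𝒪 i
  /-- the `𝒪 i` are discrete -/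
  disc : ∀ i, ∀ x : F, x ≠ 0 → ∃ a : ℕ, x / algebraMap R F ϖ ^ a ∉ 𝒪 i

/-- The residue field of `𝒪 i` is the residue field of `𝒪0` (tested on `⋂ 𝒪 j`). -/
def ResEq (𝒪0 : ValuationSubring F0) (𝒪 : ι → ValuationSubring F) (i : ι) : Prop :=
  ∀ z : F, (∀ j, z ∈ 𝒪 j) → ∃ f ∈ 𝒪0, z - algebraMap F0 F f ∈ (𝒪 i).nonunits

/-- The `i`-th component is the image of the `j`-th one under an automorphism `w` of the chart
`C`. -/
def Transp (𝒪 : ι → ValuationSubring F) (C : Subalgebra R F) (i j : ι) : Prop :=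
  ∃ w : F ≃ₐ[R] F, (∀ x, x ∈ 𝒪 i ↔ w x ∈ 𝒪 j) ∧ (∀ x ∈ C, w x ∈ C) ∧ (∀ x ∈ C, w.symm x ∈ C)

/-- The hypotheses on the base function `t` of a chart (to be applied to `t = h_r` and
`t = h_r⁻¹`). -/
structure VChart (ϖ : R) (𝒪0 : ValuationSubring F0) (𝒪 : ι → ValuationSubring F) (t : F0) :
    Prop where
  good : GoodChart ϖ 𝒪0 (chart R ({t} : Set F0))
  fin : Module.Finite (Algebra.adjoin R ({algebraMap F0 F t} : Set F))
    (integralClosure (Algebra.adjoin R ({algebraMap F0 F t} : Set F)) F)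
  sep : ∀ i j, i ≠ j → ∃ e ∈ chart R ({algebraMap F0 F t} : Set F),
    e ∈ (𝒪 j).nonunits ∧ e ∉ (𝒪 i).nonunits
  ded : ∀ i, ResEq 𝒪0 𝒪 i ∨
    ∃ j, ResEq 𝒪0 𝒪 j ∧ Transp 𝒪 (chart R ({algebraMap F0 F t} : Set F)) i j

end Fermat.Agent.GT.Val
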